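import Fermat.Agent.S25.DefsDict

/-!
# Row S27, leaf CURVE (helper805): a curve with a two-chart presentation is proper

For ANY `c : C ⟶ Spec k` with a two-chart presentation `Ch : S25.ChartOf c ε`
(independent of how `C` was constructed):

* `valuative_existence`, `valuative_uniqueness`, `valuativeCriterion`;
* `locallyOfFiniteType`, `isLocallyNoetherian`, `compactSpace`;
* `isProper_of_chartOf : IsProper c`.

Valuative criterion: a point `Spec K ⟶ C` lies in `U₀` or `U₁`; on `U₀ ⊓ U₁` one has `x y = 1`,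
so `x` or `y` takes a value in the valuation ring `R`; as `B₀` is finite over `k[x]` (and `B₁`
over `k[y]`) and `R` is integrally closed, the chart ring maps to `R`.  Uniqueness: two lifts
whose closed points lie in different charts have `x` and `y = x⁻¹` in `R`, so both lie in
`U₀ ⊓ U₁`.

Reusable, Mathlib-only in content: `pointHom` (ring map of a morphism `Spec A ⟶ X` landing in
an open), `specMap_pointHom_fromSpec`, `preimage_basicOpen`, `eq_of_comp_eq`,
`exists_lift_of_finite`.
-/

set_option autoImplicit false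
universe u
open CategoryTheory CategoryTheory.Limits AlgebraicGeometry AlgebraicGeometry.RelPicard
  NeronModelInfra GoodReductionJacobian

namespace Fermat.Agent.S27.H805

section Algebra

/-- A ring map into a field whose image lies in the range of an injective ring map lifts. -/
theorem exists_ringHom_lift {B R K : Type*} [CommRing B] [CommRing R] [CommRing K]
    (ι : R →+* K) (hι : Function.Injective ι) (φ : B →+* K) (h : ∀ b, φ b ∈ ι.range) :
    ∃ ψ : B →+* R, ι.comp ψ = φ := by
  choose f hf using h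
  refine ⟨{ toFun := f, map_one' := ?_, map_mul' := ?_, map_zero' := ?_, map_add' := ?_ }, ?_⟩
  · apply hι; rw [hf, map_one, map_one]
  · intro a b; apply hι; rw [hf, map_mul, map_mul, hf, hf]
  · apply hι; rw [hf, map_zero, map_zero]
  · intro a b; apply hι; rw [hf, map_add, map_add, hf, hf]
  · ext b; exact hf b

/-- **Valuative lifting for a finite chart.**  If `B` is finite over `k[x]`, a ring map
`φ : B → K` to the fraction field of a valuation ring `R` containing the image of `k` and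
`φ x` factors through `R`. -/
theorem exists_lift_of_finite {k B R K : Type*} [Field k] [CommRing B] [Algebra k B]
    [CommRing R] [IsDomain R] [ValuationRing R] [Field K] [Algebra R K] [IsFractionRing R K]
    (x : B) (hfin : (Polynomial.aeval x : Polynomial k →ₐ[k] B).Finite)
    (φ : B →+* K) (j : k →+* R) (hj : φ.comp (algebraMap k B) = (algebraMap R K).comp j)
    (hx : φ x ∈ (algebraMap R K).range) : ∃ ψ : B →+* R, (algebraMap R K).comp ψ = φ := by
  obtain ⟨r₀, hr₀⟩ := hx
  have hint : (Polynomial.aeval x : Polynomial k →ₐ[k] B).toRingHom.IsIntegral :=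
    RingHom.Finite.to_isIntegral hfin
  let e : Polynomial k →+* R := Polynomial.eval₂RingHom j r₀
  have he : (algebraMap R K).comp e = φ.comp (Polynomial.aeval x : Polynomial k →ₐ[k] B) := by
    apply Polynomial.ringHom_ext
    · intro a
      have := congrArg (fun f => f a) hj
      simpa [e] using this.symm
    · simp [e, hr₀]
  apply exists_ringHom_lift (algebraMap R K) (IsFractionRing.injective R K) φ
  intro b
  obtain ⟨p, hp, hpb⟩ := hint b
  have hI : IsIntegral R (φ b) := by
    refine ⟨p.map e, hp.map e, ?_⟩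
    rw [Polynomial.eval₂_map, he]
    have := Polynomial.hom_eval₂ p (Polynomial.aeval x : Polynomial k →ₐ[k] B).toRingHom φ b
    rw [hpb, map_zero] at this
    exact this.symm
  exact IsIntegrallyClosed.isIntegral_iff.mp hI

end Algebra

section Affine

variable {X : Scheme.{u}} {U : X.Opens}

/-- The ring map `Γ(X, U) → A` of a morphism `Spec A ⟶ X` landing in the open `U`. -/
noncomputable def pointHom {A : CommRingCat.{u}} (g : Spec A ⟶ X) (hg : g ⁻¹ᵁ U = ⊤) :
    Γ(X, U) ⟶ A :=
  g.appLE U ⊤ (le_of_eq hg.symm) ≫ (Scheme.ΓSpecIso A).hom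

theorem specMap_pointHom_fromSpec (hU : IsAffineOpen U) {A : CommRingCat.{u}} (g : Spec A ⟶ X)
    (hg : g ⁻¹ᵁ U = ⊤) : Spec.map (pointHom g hg) ≫ hU.fromSpec = g := by
  rw [pointHom, Spec.map_comp, Category.assoc,
    IsAffineOpen.SpecMap_appLE_fromSpec g hU (isAffineOpen_top (Spec A)),
    IsAffineOpen.fromSpec_top, Scheme.isoSpec_Spec_inv, ← Spec.map_comp_assoc,
    Iso.inv_hom_id, Spec.map_id, Category.id_comp]

theorem preimage_specMap_fromSpec (hU : IsAffineOpen U) {A : CommRingCat.{u}}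
    (a : Γ(X, U) ⟶ A) : (Spec.map a ≫ hU.fromSpec) ⁻¹ᵁ U = ⊤ := by
  rw [Scheme.Hom.comp_preimage, hU.fromSpec_preimage_self]
  rfl

/-- Restriction: `pointHom` for a smaller open. -/
theorem res_pointHom {V : X.Opens} (hVU : V ≤ U) {A : CommRingCat.{u}} (g : Spec A ⟶ X)
    (hgV : g ⁻¹ᵁ V = ⊤) (hgU : g ⁻¹ᵁ U = ⊤) :
    X.presheaf.map (homOfLE hVU).op ≫ pointHom g hgV = pointHom g hgU := by
  rw [pointHom, pointHom, ← Category.assoc, Scheme.Hom.map_appLE]

theorem preimage_comp_eq_top {A B : CommRingCat.{u}} (m : A ⟶ B) (g : Spec A ⟶ X)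
    (hg : g ⁻¹ᵁ U = ⊤) : (Spec.map m ≫ g) ⁻¹ᵁ U = ⊤ := by
  rw [Scheme.Hom.comp_preimage, hg]
  rfl

/-- Precomposition with a morphism of affine schemes. -/
theorem pointHom_specMap_comp {A B : CommRingCat.{u}} (m : A ⟶ B) (g : Spec A ⟶ X)
    (hg : g ⁻¹ᵁ U = ⊤) (hg' : (Spec.map m ≫ g) ⁻¹ᵁ U = ⊤) :
    pointHom (Spec.map m ≫ g) hg' = pointHom g hg ≫ m := by
  rw [pointHom, pointHom, Category.assoc, ← Scheme.ΓSpecIso_naturality,
    ← Category.assoc]
  congr 1

/-- The preimage of a basic open. -/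
theorem preimage_basicOpen (hU : IsAffineOpen U) {A : CommRingCat.{u}} (g : Spec A ⟶ X)
    (hg : g ⁻¹ᵁ U = ⊤) (f : Γ(X, U)) :
    g ⁻¹ᵁ (X.basicOpen f) = PrimeSpectrum.basicOpen ((pointHom g hg).hom f) := by
  conv_lhs => rw [← specMap_pointHom_fromSpec hU g hg]
  rw [Scheme.Hom.comp_preimage, hU.fromSpec_preimage_basicOpen]
  rfl

/-- A morphism from the spectrum of a local ring lands in an open as soon as the closed
point does. -/
theorem preimage_eq_top_of_closedPoint {A : Type u} [CommRing A] [IsLocalRing A]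
    (g : Spec (CommRingCat.of A) ⟶ X) (h : g (IsLocalRing.closedPoint A) ∈ U) :
    g ⁻¹ᵁ U = ⊤ :=
  IsLocalRing.closed_point_mem_iff.mp h

/-- Two morphisms `Spec R ⟶ X` landing in the same affine open that agree on `Spec K`, where
`R → K` is injective, are equal. -/
theorem eq_of_comp_eq (hU : IsAffineOpen U) {R K : CommRingCat.{u}} (m : R ⟶ K)
    (hm : Function.Injective m.hom) (l l' : Spec R ⟶ X) (hl : l ⁻¹ᵁ U = ⊤)
    (hl' : l' ⁻¹ᵁ U = ⊤) (h : Spec.map m ≫ l = Spec.map m ≫ l') : l = l' := by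
  have h1 := pointHom_specMap_comp m l hl (preimage_comp_eq_top m l hl)
  have h2 := pointHom_specMap_comp m l' hl' (preimage_comp_eq_top m l' hl')
  have h3 : pointHom l hl ≫ m = pointHom l' hl' ≫ m := by
    rw [← h1, ← h2]
    congr 1
  have h4 : pointHom l hl = pointHom l' hl' := by
    ext b
    apply hm
    exact congrArg (fun φ => φ.hom b) h3
  rw [← specMap_pointHom_fromSpec hU l hl, ← specMap_pointHom_fromSpec hU l' hl', h4]

end Affine

section Str

open Fermat.Agent.S25

variable {k : Type u} [Field k] {C : Scheme.{u}} (c : C ⟶ Spec (CommRingCat.of k))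

theorem preimage_specMap_comp {A B : CommRingCat.{u}} {R : CommRingCat.{u}} (m : A ⟶ B)
    (h : Spec A ⟶ Spec R) : Spec.preimage (Spec.map m ≫ h) = Spec.preimage h ≫ m := by
  apply Spec.map_injective
  rw [Spec.map_preimage, Spec.map_comp, Spec.map_preimage]

theorem preimage_eq_appTop {A R : CommRingCat.{u}} (h : Spec A ⟶ Spec R) :
    Spec.preimage h = (Scheme.ΓSpecIso R).inv ≫ h.appTop ≫ (Scheme.ΓSpecIso A).hom := by
  obtain ⟨m, rfl⟩ := Spec.map_surjective h
  rw [Spec.preimage_map, Scheme.ΓSpecIso_naturality, Iso.inv_hom_id_assoc]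

/-- The structure map of `k` followed by the ring map of a point. -/
theorem sectionsStr_pointHom {U : C.Opens} {A : CommRingCat.{u}} (g : Spec A ⟶ C)
    (hg : g ⁻¹ᵁ U = ⊤) :
    CommRingCat.ofHom (sectionsStr c U) ≫ pointHom g hg = Spec.preimage (g ≫ c) := by
  rw [pointHom, sectionsStr, preimage_eq_appTop]
  simp only [CommRingCat.ofHom_hom, Category.assoc]
  rw [← Category.assoc (C.presheaf.map _), Scheme.Hom.map_appLE]
  congr 1

end Str

section Chart

open Fermat.Agent.S25

variable {k : Type u} [Field k] {C : Scheme.{u}} {c : C ⟶ Spec (CommRingCat.of k)}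
  {ε : SchemeHomOver (𝟙 (Spec (CommRingCat.of k))) c} (Ch : ChartOf c ε)

/-- The coordinate `x` as a function on `U₀`. -/
noncomputable def xSec : Γ(C, Ch.U₀) := Ch.i₀.symm Ch.x

/-- The coordinate `y` as a function on `U₁`. -/
noncomputable def ySec : Γ(C, Ch.U₁) := Ch.i₁.symm Ch.y

theorem inf_eq_basicOpen_x : Ch.U₀ ⊓ Ch.U₁ = C.basicOpen (xSec Ch) := Ch.inf_eq₀

theorem inf_eq_basicOpen_y : Ch.U₀ ⊓ Ch.U₁ = C.basicOpen (ySec Ch) := Ch.inf_eq₁

theorem res_x_mul_res_y :
    resRing inf_le_left (xSec Ch) * resRing inf_le_right (ySec Ch) =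
      (1 : Γ(C, Ch.U₀ ⊓ Ch.U₁)) := by
  apply Ch.i₀₁.injective
  rw [map_mul, Ch.i₀₁_res₀, Ch.i₀₁_res₁, map_one, xSec, ySec, RingEquiv.apply_symm_apply,
    RingEquiv.apply_symm_apply]
  exact Ch.isCurveChart.mul_eq_one

/-- On a point of `U₀ ⊓ U₁`, the values of `x` and `y` are inverse to each other. -/
theorem pointHom_x_mul_pointHom_y {A : CommRingCat.{u}} (g : Spec A ⟶ C)
    (h₀ : g ⁻¹ᵁ Ch.U₀ = ⊤) (h₁ : g ⁻¹ᵁ Ch.U₁ = ⊤) :
    (pointHom g h₀).hom (xSec Ch) * (pointHom g h₁).hom (ySec Ch) = 1 := by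
  have h₀₁ : g ⁻¹ᵁ (Ch.U₀ ⊓ Ch.U₁) = ⊤ := by
    rw [Scheme.Hom.preimage_inf, h₀, h₁, inf_idem]
  have e₀ := res_pointHom (inf_le_left : Ch.U₀ ⊓ Ch.U₁ ≤ Ch.U₀) g h₀₁ h₀
  have e₁ := res_pointHom (inf_le_right : Ch.U₀ ⊓ Ch.U₁ ≤ Ch.U₁) g h₀₁ h₁
  rw [← e₀, ← e₁]
  have := congrArg (pointHom g h₀₁).hom (res_x_mul_res_y Ch)
  rw [map_mul, map_one] at this
  exact this

end Chart

section Valuative

open Fermat.Agent.S25

variable {k : Type u} [Field k] {C : Scheme.{u}} {c : C ⟶ Spec (CommRingCat.of k)}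

/-- Two morphisms of affine schemes that agree after an "injective" base change agree. -/
theorem eq_of_specMap_comp_eq {R K A : CommRingCat.{u}} (m : R ⟶ K)
    (hm : Function.Injective m.hom) (l l' : Spec R ⟶ Spec A)
    (h : Spec.map m ≫ l = Spec.map m ≫ l') : l = l' :=
  eq_of_comp_eq (isAffineOpen_top (Spec A)) m hm l l' rfl rfl h

/-- A valuative square whose generic point lies in a finite chart on which the coordinate
takes a value in the valuation ring has a lift. -/
theorem hasLift_of_chart {U : C.Opens} (hU : IsAffineOpen U) {B : Type u} [CommRing B]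
    [Algebra k B] (i : Γ(C, U) ≃+* B)
    (hi : ∀ a : k, i (sectionsStr c U a) = algebraMap k B a) (x : B)
    (hfin : (Polynomial.aeval x : Polynomial k →ₐ[k] B).Finite)
    (S : ValuativeCommSq c) (h : S.i₁ ⁻¹ᵁ U = ⊤)
    (hx : (pointHom S.i₁ h).hom (i.symm x) ∈ (algebraMap S.R S.K).range) :
    S.commSq.HasLift := by
  let φ : B →+* S.K := (pointHom S.i₁ h).hom.comp i.symm.toRingHom
  let j : k →+* S.R := (Spec.preimage S.i₂).hom
  have hj : φ.comp (algebraMap k B) = (algebraMap S.R S.K).comp j := by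
    have e1 := sectionsStr_pointHom c S.i₁ h
    rw [S.commSq.w, preimage_specMap_comp] at e1
    ext a
    have e2 := congrArg (fun f => f.hom a) e1
    simp only [CommRingCat.hom_comp, CommRingCat.hom_ofHom, RingHom.comp_apply] at e2
    simp only [RingHom.comp_apply, φ, j]
    rw [← e2, ← hi a]
    simp
  obtain ⟨ψ, hψ⟩ := exists_lift_of_finite x hfin φ j hj hx
  let ψ' : Γ(C, U) ⟶ CommRingCat.of S.R := CommRingCat.ofHom (ψ.comp i.toRingHom)
  have hl : Spec.map (CommRingCat.ofHom (algebraMap S.R S.K)) ≫ Spec.map ψ' ≫ hU.fromSpec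
      = S.i₁ := by
    conv_rhs => rw [← specMap_pointHom_fromSpec hU S.i₁ h]
    rw [← Category.assoc, ← Spec.map_comp]
    congr 2
    ext b
    have := congrArg (fun f => f (i b)) hψ
    simpa [φ, ψ'] using this
  refine ⟨⟨Spec.map ψ' ≫ hU.fromSpec, hl, ?_⟩⟩
  apply eq_of_specMap_comp_eq (CommRingCat.ofHom (algebraMap S.R S.K))
    (IsFractionRing.injective S.R S.K)
  rw [← S.commSq.w, ← hl]
  simp only [Category.assoc]

end Valuative

section Proper

open Fermat.Agent.S25

variable {k : Type u} [Field k] {C : Scheme.{u}} {c : C ⟶ Spec (CommRingCat.of k)}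
  {ε : SchemeHomOver (𝟙 (Spec (CommRingCat.of k))) c} (Ch : ChartOf c ε)

/-- In the spectrum of a field, a function vanishing at the point is zero. -/
theorem eq_zero_of_not_mem_basicOpen {K : Type u} [Field K] (a : K)
    (h : IsLocalRing.closedPoint K ∉ PrimeSpectrum.basicOpen a) : a = 0 := by
  by_contra ha
  apply h
  rw [PrimeSpectrum.mem_basicOpen]
  intro hmem
  have hmem' : a ∈ IsLocalRing.maximalIdeal K := hmem
  rw [IsLocalRing.maximalIdeal_eq_bot, Ideal.mem_bot] at hmem'
  exact ha hmem'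

/-- A point outside `U₁` has `x = 0`. -/
theorem pointHom_x_eq_zero {K : Type u} [Field K] (g : Spec (CommRingCat.of K) ⟶ C)
    (h₀ : g ⁻¹ᵁ Ch.U₀ = ⊤) (h₁ : g (IsLocalRing.closedPoint K) ∉ Ch.U₁) :
    (pointHom g h₀).hom (xSec Ch) = 0 := by
  apply eq_zero_of_not_mem_basicOpen
  rw [← preimage_basicOpen Ch.isAffine₀ g h₀, ← inf_eq_basicOpen_x]
  intro hmem
  exact h₁ hmem.2

/-- A point outside `U₀` has `y = 0`. -/
theorem pointHom_y_eq_zero {K : Type u} [Field K] (g : Spec (CommRingCat.of K) ⟶ C)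
    (h₁ : g ⁻¹ᵁ Ch.U₁ = ⊤) (h₀ : g (IsLocalRing.closedPoint K) ∉ Ch.U₀) :
    (pointHom g h₁).hom (ySec Ch) = 0 := by
  apply eq_zero_of_not_mem_basicOpen
  rw [← preimage_basicOpen Ch.isAffine₁ g h₁, ← inf_eq_basicOpen_y]
  intro hmem
  exact h₀ hmem.1

theorem mem_U₀_or_mem_U₁ (p : C) : p ∈ Ch.U₀ ∨ p ∈ Ch.U₁ := by
  have : p ∈ (Ch.U₀ ⊔ Ch.U₁ : C.Opens) := by rw [Ch.cover]; trivial
  exact this

/-- **Existence part of the valuative criterion.** -/
theorem valuative_existence (Ch : ChartOf c ε) : ValuativeCriterion.Existence c := by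
  intro S
  by_cases hp₀ : S.i₁ (IsLocalRing.closedPoint S.K) ∈ Ch.U₀
  · have h₀ := preimage_eq_top_of_closedPoint S.i₁ hp₀
    by_cases hx : (pointHom S.i₁ h₀).hom (xSec Ch) ∈ (algebraMap S.R S.K).range
    · exact hasLift_of_chart Ch.isAffine₀ Ch.i₀ Ch.i₀_str Ch.x Ch.isCurveChart.finite₀ S h₀ hx
    · have hp₁ : S.i₁ (IsLocalRing.closedPoint S.K) ∈ Ch.U₁ := by
        by_contra hp₁
        apply hx
        rw [pointHom_x_eq_zero Ch S.i₁ h₀ hp₁]
        exact ⟨0, map_zero _⟩
      have h₁ := preimage_eq_top_of_closedPoint S.i₁ hp₁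
      have hxy := pointHom_x_mul_pointHom_y Ch S.i₁ h₀ h₁
      refine hasLift_of_chart Ch.isAffine₁ Ch.i₁ Ch.i₁_str Ch.y Ch.isCurveChart.finite₁ S h₁ ?_
      rcases ValuationRing.isInteger_or_isInteger S.R ((pointHom S.i₁ h₀).hom (xSec Ch)) with
        ⟨r, hr⟩ | ⟨r, hr⟩
      · exact absurd ⟨r, hr⟩ hx
      · refine ⟨r, ?_⟩
        rw [hr]
        exact (eq_inv_of_mul_eq_one_right hxy).symm
  · have hp₁ : S.i₁ (IsLocalRing.closedPoint S.K) ∈ Ch.U₁ :=
      (mem_U₀_or_mem_U₁ Ch _).resolve_left hp₀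
    have h₁ := preimage_eq_top_of_closedPoint S.i₁ hp₁
    refine hasLift_of_chart Ch.isAffine₁ Ch.i₁ Ch.i₁_str Ch.y Ch.isCurveChart.finite₁ S h₁ ?_
    have hy0 := pointHom_y_eq_zero Ch S.i₁ h₁ hp₀
    exact ⟨0, by rw [map_zero]; exact hy0.symm⟩

/-- If two morphisms from the spectrum of a local ring agree generically, one sends the closed
point to `U₀` and the other to `U₁`, then the first also sends the closed point to `U₁`. -/
theorem mem_U₁_of_agree {R : Type u} [CommRing R] [IsLocalRing R] {K : CommRingCat.{u}}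
    (m : CommRingCat.of R ⟶ K) (hm : Function.Injective m.hom)
    (l l' : Spec (CommRingCat.of R) ⟶ C) (h : Spec.map m ≫ l = Spec.map m ≫ l')
    (hl : l (IsLocalRing.closedPoint R) ∈ Ch.U₀) (hl' : l' (IsLocalRing.closedPoint R) ∈ Ch.U₁) :
    l (IsLocalRing.closedPoint R) ∈ Ch.U₁ := by
  have hl₀ := preimage_eq_top_of_closedPoint l hl
  have hl₁' := preimage_eq_top_of_closedPoint l' hl'
  have h₀ : (Spec.map m ≫ l) ⁻¹ᵁ Ch.U₀ = ⊤ := preimage_comp_eq_top m l hl₀
  have h₁ : (Spec.map m ≫ l) ⁻¹ᵁ Ch.U₁ = ⊤ := by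
    rw [h]; exact preimage_comp_eq_top m l' hl₁'
  have hxy := pointHom_x_mul_pointHom_y Ch (Spec.map m ≫ l) h₀ h₁
  have e₀ : pointHom (Spec.map m ≫ l) h₀ = pointHom l hl₀ ≫ m :=
    pointHom_specMap_comp m l hl₀ h₀
  have e₁ : pointHom (Spec.map m ≫ l) h₁ = pointHom l' hl₁' ≫ m := by
    have h₁' : (Spec.map m ≫ l') ⁻¹ᵁ Ch.U₁ = ⊤ := preimage_comp_eq_top m l' hl₁'
    rw [← pointHom_specMap_comp m l' hl₁' h₁']
    congr 1
  rw [e₀, e₁] at hxy
  simp only [CommRingCat.hom_comp, RingHom.comp_apply] at hxy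
  rw [← map_mul, ← map_one m.hom] at hxy
  have hu : IsUnit ((pointHom l hl₀).hom (xSec Ch)) := IsUnit.of_mul_eq_one _ (hm hxy)
  have hmem : IsLocalRing.closedPoint R ∈ l ⁻¹ᵁ (C.basicOpen (xSec Ch)) := by
    rw [preimage_basicOpen Ch.isAffine₀ l hl₀]
    exact (PrimeSpectrum.mem_basicOpen _ _).mpr ((IsLocalRing.notMem_maximalIdeal).mpr hu)
  rw [← inf_eq_basicOpen_x] at hmem
  exact hmem.2

/-- **Uniqueness part of the valuative criterion.** -/
theorem valuative_uniqueness (Ch : ChartOf c ε) : ValuativeCriterion.Uniqueness c := by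
  intro S
  constructor
  intro l l'
  have hm : Function.Injective (CommRingCat.ofHom (algebraMap S.R S.K)).hom :=
    IsFractionRing.injective S.R S.K
  have hagree : Spec.map (CommRingCat.ofHom (algebraMap S.R S.K)) ≫ l.l =
      Spec.map (CommRingCat.ofHom (algebraMap S.R S.K)) ≫ l'.l :=
    l.fac_left.trans l'.fac_left.symm
  have key : ∃ U : C.Opens, IsAffineOpen U ∧ l.l ⁻¹ᵁ U = ⊤ ∧ l'.l ⁻¹ᵁ U = ⊤ := by
    rcases mem_U₀_or_mem_U₁ Ch (l.l (IsLocalRing.closedPoint S.R)) with h | h <;>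
    rcases mem_U₀_or_mem_U₁ Ch (l'.l (IsLocalRing.closedPoint S.R)) with h' | h'
    · exact ⟨Ch.U₀, Ch.isAffine₀, preimage_eq_top_of_closedPoint _ h,
        preimage_eq_top_of_closedPoint _ h'⟩
    · exact ⟨Ch.U₁, Ch.isAffine₁, preimage_eq_top_of_closedPoint _
        (mem_U₁_of_agree Ch _ hm l.l l'.l hagree h h'), preimage_eq_top_of_closedPoint _ h'⟩
    · exact ⟨Ch.U₁, Ch.isAffine₁, preimage_eq_top_of_closedPoint _ h,
        preimage_eq_top_of_closedPoint _ (mem_U₁_of_agree Ch _ hm l'.l l.l hagree.symm h' h)⟩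
    · exact ⟨Ch.U₁, Ch.isAffine₁, preimage_eq_top_of_closedPoint _ h,
        preimage_eq_top_of_closedPoint _ h'⟩
  obtain ⟨U, hU, h1, h2⟩ := key
  ext1
  exact eq_of_comp_eq hU _ hm l.l l'.l h1 h2 hagree

theorem valuativeCriterion (Ch : ChartOf c ε) : ValuativeCriterion c :=
  ValuativeCriterion.iff.mpr ⟨valuative_existence Ch, valuative_uniqueness Ch⟩

end Proper

section Finiteness

open Fermat.Agent.S25

variable {k : Type u} [Field k] {C : Scheme.{u}} {c : C ⟶ Spec (CommRingCat.of k)}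
  {ε : SchemeHomOver (𝟙 (Spec (CommRingCat.of k))) c} (Ch : ChartOf c ε)

/-- A `k`-algebra finite over `k[x]` is of finite type. -/
theorem finiteType_of_finite_aeval {B : Type*} [CommRing B] [Algebra k B] (x : B)
    (hfin : (Polynomial.aeval x : Polynomial k →ₐ[k] B).Finite) :
    (algebraMap k B).FiniteType := by
  have h1 : (Polynomial.aeval x : Polynomial k →ₐ[k] B).toRingHom.FiniteType :=
    RingHom.FiniteType.of_finite hfin
  have h2 : (algebraMap k (Polynomial k)).FiniteType := by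
    rw [RingHom.finiteType_algebraMap]
    infer_instance
  have h3 := h1.comp h2
  have e : (Polynomial.aeval x : Polynomial k →ₐ[k] B).toRingHom.comp
      (algebraMap k (Polynomial k)) = algebraMap k B := by
    ext a
    simp
  rwa [e] at h3

/-- The structure map of a chart is of finite type. -/
theorem finiteType_sectionsStr {U : C.Opens} {B : Type u} [CommRing B] [Algebra k B]
    (i : Γ(C, U) ≃+* B) (hi : ∀ a : k, i (sectionsStr c U a) = algebraMap k B a) (x : B)
    (hfin : (Polynomial.aeval x : Polynomial k →ₐ[k] B).Finite) :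
    (sectionsStr c U).FiniteType := by
  have h1 := finiteType_of_finite_aeval x hfin
  have h2 : (i.symm.toRingHom).FiniteType :=
    RingHom.FiniteType.of_surjective _ i.symm.surjective
  have h3 := h2.comp h1
  have e : i.symm.toRingHom.comp (algebraMap k B) = sectionsStr c U := by
    ext a
    simp only [RingHom.comp_apply, RingEquiv.toRingHom_eq_coe, RingHom.coe_coe]
    rw [← hi a, RingEquiv.symm_apply_apply]
  rwa [e] at h3

theorem appLE_eq_sectionsStr (U : C.Opens) :
    c.appLE ⊤ U le_top =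
      (Scheme.ΓSpecIso (CommRingCat.of k)).hom ≫ CommRingCat.ofHom (sectionsStr c U) := by
  rw [sectionsStr]
  simp only [CommRingCat.ofHom_hom, Iso.hom_inv_id_assoc]
  rfl

theorem finiteType_appLE {U : C.Opens} (h : (sectionsStr c U).FiniteType) :
    (c.appLE ⊤ U le_top).hom.FiniteType := by
  rw [appLE_eq_sectionsStr, CommRingCat.hom_comp]
  exact h.comp (RingHom.FiniteType.of_surjective _
    (ConcreteCategory.bijective_of_isIso (Scheme.ΓSpecIso (CommRingCat.of k)).hom).2)

/-- The two charts as a family of affine opens. -/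
def chartOpens : Bool → C.affineOpens
  | false => ⟨Ch.U₀, Ch.isAffine₀⟩
  | true => ⟨Ch.U₁, Ch.isAffine₁⟩

theorem iSup_chartOpens : ⨆ b, (chartOpens Ch b : C.Opens) = ⊤ := by
  rw [iSup_bool_eq]
  rw [sup_comm]
  exact Ch.cover

theorem locallyOfFiniteType (Ch : ChartOf c ε) : LocallyOfFiniteType c := by
  rw [HasRingHomProperty.iff_of_iSup_eq_top (P := @LocallyOfFiniteType) (chartOpens Ch)
    (iSup_chartOpens Ch)]
  rintro (_ | _)
  · exact finiteType_appLE
      (finiteType_sectionsStr Ch.i₀ Ch.i₀_str Ch.x Ch.isCurveChart.finite₀)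
  · exact finiteType_appLE
      (finiteType_sectionsStr Ch.i₁ Ch.i₁_str Ch.y Ch.isCurveChart.finite₁)

theorem isNoetherianRing_sections {U : C.Opens} (h : (sectionsStr c U).FiniteType) :
    IsNoetherianRing Γ(C, U) := by
  let _ := (sectionsStr c U).toAlgebra
  have : Algebra.FiniteType k Γ(C, U) := h
  exact Algebra.FiniteType.isNoetherianRing k _

theorem isLocallyNoetherian (Ch : ChartOf c ε) : IsLocallyNoetherian C := by
  apply isLocallyNoetherian_of_affine_cover (S := chartOpens Ch) (iSup_chartOpens Ch)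
  rintro (_ | _)
  · exact isNoetherianRing_sections
      (finiteType_sectionsStr Ch.i₀ Ch.i₀_str Ch.x Ch.isCurveChart.finite₀)
  · exact isNoetherianRing_sections
      (finiteType_sectionsStr Ch.i₁ Ch.i₁_str Ch.y Ch.isCurveChart.finite₁)

theorem compactSpace (Ch : ChartOf c ε) : CompactSpace C := by
  constructor
  have h : (Set.univ : Set C) = (Ch.U₀ : Set C) ∪ (Ch.U₁ : Set C) := by
    ext p
    simp only [Set.mem_univ, Set.mem_union, SetLike.mem_coe, true_iff]
    exact mem_U₀_or_mem_U₁ Ch p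
  rw [h]
  exact Ch.isAffine₀.isCompact.union Ch.isAffine₁.isCompact

/-- **A curve with a two-chart presentation is proper.** -/
theorem isProper_of_chartOf (Ch : ChartOf c ε) : IsProper c := by
  have := isLocallyNoetherian Ch
  have := compactSpace Ch
  have : QuasiCompact c := (quasiCompact_iff_compactSpace c).mpr inferInstance
  have : QuasiSeparated c := (quasiSeparated_iff_quasiSeparatedSpace c).mpr inferInstance
  have := locallyOfFiniteType Ch
  exact IsProper.of_valuativeCriterion c (valuativeCriterion Ch)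

end Finiteness

end Fermat.Agent.S27.H805
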