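import Fermat.Agent.S27.H805.CurveProper

/-!
# Row S27, leaf CURVE (helper805): a curve with a two-chart presentation is smooth of
relative dimension one and integral

For ANY `c : C ⟶ Spec k` with a two-chart presentation `Ch : S25.ChartOf c ε`:

* `smooth_of_chartOf : SmoothOfRelativeDimension 1 c` (any field `k`);
* `isReduced`, `irreducibleSpace`, `isIntegral_of_chartOf : IsIntegral C` (`k` algebraically
  closed; used only to see that the coordinates `x`, `y` are nonzero, i.e. `U₀ ⊓ U₁ ≠ ∅`).

Algebra (Mathlib only): `locally_isStandardSmooth_one` (smooth domain with invertible `Ω` is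
locally standard smooth of relative dimension `1`), `ne_zero_of_finite_aeval`.
-/

set_option autoImplicit false
universe u
open CategoryTheory CategoryTheory.Limits AlgebraicGeometry AlgebraicGeometry.RelPicard
  NeronModelInfra GoodReductionJacobian
open scoped KaehlerDifferential

namespace Fermat.Agent.S27.H805

section Algebra

/-- A smooth domain over a field whose module of differentials is invertible is locally
standard smooth of relative dimension one. -/
theorem locally_isStandardSmooth_one (k B : Type u) [Field k] [CommRing B] [IsDomain B]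
    [Algebra k B] [Algebra.Smooth k B] [Module.Invertible B Ω[B⁄k]] :
    RingHom.Locally (RingHom.IsStandardSmoothOfRelativeDimension 1) (algebraMap k B) := by
  obtain ⟨s, hs, h⟩ := Algebra.Smooth.exists_span_eq_top_isStandardSmooth (R := k) (S := B)
  refine ⟨s \ {0}, ?_, ?_⟩
  · rw [Ideal.span_sdiff_singleton_zero]; exact hs
  · rintro t ⟨hts, ht0⟩
    have ht0' : t ≠ 0 := fun h0 => ht0 (by simp [h0])
    have hsm : Algebra.IsStandardSmooth k (Localization.Away t) := h t hts
    have hnt : Nontrivial (Localization.Away t) :=
      (IsLocalization.injective (Localization.Away t)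
        (powers_le_nonZeroDivisors_of_noZeroDivisors ht0')).nontrivial
    have hinv : Module.Invertible (Localization.Away t) Ω[Localization.Away t⁄k] :=
      Module.Invertible.of_isLocalization (Submonoid.powers t)
        (KaehlerDifferential.map k k B (Localization.Away t))
    have hfree : Module.Free (Localization.Away t) Ω[Localization.Away t⁄k] := inferInstance
    have h1 : Algebra.IsStandardSmoothOfRelativeDimension 1 k (Localization.Away t) := by
      rw [Algebra.IsStandardSmoothOfRelativeDimension.iff_of_isStandardSmooth]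
      rw [Module.Invertible.rank_eq_one]
      simp
    rw [← IsScalarTower.algebraMap_eq k B (Localization.Away t)]
    exact (RingHom.isStandardSmoothOfRelativeDimension_algebraMap 1).2 h1

/-- Over an algebraically closed field, a domain with invertible module of differentials is
not finite over `k[x]` for `x = 0`: the coordinate of a curve chart is nonzero. -/
theorem ne_zero_of_finite_aeval (k B : Type u) [Field k] [IsAlgClosed k] [CommRing B]
    [IsDomain B] [Algebra k B] [Module.Invertible B Ω[B⁄k]] (x : B)
    (hfin : (Polynomial.aeval x : Polynomial k →ₐ[k] B).Finite) : x ≠ 0 := by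
  rintro rfl
  have e : (Polynomial.aeval (0 : B) : Polynomial k →ₐ[k] B).toRingHom =
      (algebraMap k B).comp (Polynomial.evalRingHom (0 : k)) := by
    apply Polynomial.ringHom_ext
    · intro a; simp
    · simp
  have h1 : (algebraMap k B).Finite := by
    have h2 : ((algebraMap k B).comp (Polynomial.evalRingHom (0 : k))).Finite := by
      rw [← e]; exact hfin
    exact RingHom.Finite.of_comp_finite h2
  have h3 : Module.Finite k B := RingHom.finite_algebraMap.mp h1
  have h4 : Algebra.IsIntegral k B := inferInstance
  have hsurj : Function.Surjective (algebraMap k B) :=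
    (IsAlgClosed.algebraMap_bijective_of_isIntegral (k := k) (K := B)).2
  have hsub : Subsingleton Ω[B⁄k] := KaehlerDifferential.subsingleton_of_surjective k B hsurj
  have e2 := Module.Invertible.linearEquiv B Ω[B⁄k]
  have : Subsingleton B := e2.symm.toEquiv.subsingleton
  exact not_subsingleton B this

end Algebra

section Smooth

open Fermat.Agent.S25

variable {k : Type u} [Field k] {C : Scheme.{u}} {c : C ⟶ Spec (CommRingCat.of k)}
  {ε : SchemeHomOver (𝟙 (Spec (CommRingCat.of k))) c}

theorem sectionsStr_eq {U : C.Opens} {B : Type u} [CommRing B] [Algebra k B]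
    (i : Γ(C, U) ≃+* B) (hi : ∀ a : k, i (sectionsStr c U a) = algebraMap k B a) :
    sectionsStr c U = i.symm.toRingHom.comp (algebraMap k B) := by
  ext a
  simp only [RingHom.comp_apply, RingEquiv.toRingHom_eq_coe, RingHom.coe_coe]
  rw [← hi a, RingEquiv.symm_apply_apply]

/-- The structure map of a smooth chart is locally standard smooth of relative dimension 1. -/
theorem locally_appLE {U : C.Opens} {B : Type u} [CommRing B] [IsDomain B] [Algebra k B]
    [Algebra.Smooth k B] [Module.Invertible B Ω[B⁄k]]
    (i : Γ(C, U) ≃+* B) (hi : ∀ a : k, i (sectionsStr c U a) = algebraMap k B a) :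
    RingHom.Locally (RingHom.IsStandardSmoothOfRelativeDimension 1)
      (c.appLE ⊤ U le_top).hom := by
  have hR : RingHom.RespectsIso
      (RingHom.Locally (RingHom.IsStandardSmoothOfRelativeDimension 1)) :=
    RingHom.locally_respectsIso RingHom.isStandardSmoothOfRelativeDimension_respectsIso
  have h0 := locally_isStandardSmooth_one k B
  have h1 := hR.1 (algebraMap k B) i.symm h0
  rw [← sectionsStr_eq i hi] at h1
  have h2 := hR.2 (sectionsStr c U)
    (Scheme.ΓSpecIso (CommRingCat.of k)).commRingCatIsoToRingEquiv h1
  rw [appLE_eq_sectionsStr, CommRingCat.hom_comp]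
  exact h2

/-- **A curve with a two-chart presentation is smooth of relative dimension one.** -/
theorem smooth_of_chartOf (Ch : ChartOf c ε) : SmoothOfRelativeDimension 1 c := by
  rw [HasRingHomProperty.iff_of_iSup_eq_top (P := @SmoothOfRelativeDimension 1) (chartOpens Ch)
    (iSup_chartOpens Ch)]
  rintro (_ | _)
  · have := Ch.isCurveChart.isDomain₀
    have := Ch.isCurveChart.smooth₀
    have := Ch.isCurveChart.omega₀
    exact locally_appLE Ch.i₀ Ch.i₀_str
  · have := Ch.isCurveChart.isDomain₁
    have := Ch.isCurveChart.smooth₁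
    have := Ch.isCurveChart.omega₁
    exact locally_appLE Ch.i₁ Ch.i₁_str

end Smooth

section Integral

open Fermat.Agent.S25

variable {k : Type u} [Field k] {C : Scheme.{u}} {c : C ⟶ Spec (CommRingCat.of k)}
  {ε : SchemeHomOver (𝟙 (Spec (CommRingCat.of k))) c} (Ch : ChartOf c ε)

theorem isDomain_sections₀ : IsDomain Γ(C, Ch.U₀) :=
  have := Ch.isCurveChart.isDomain₀
  Ch.i₀.toMulEquiv.isDomain Ch.B₀

theorem isDomain_sections₁ : IsDomain Γ(C, Ch.U₁) :=
  have := Ch.isCurveChart.isDomain₁
  Ch.i₁.toMulEquiv.isDomain Ch.B₁

/-- An affine open whose ring of functions is a domain is a reduced scheme. -/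
theorem isReduced_of_isDomain {X : Scheme.{u}} {U : X.Opens} (hU : IsAffineOpen U)
    [IsDomain Γ(X, U)] : IsReduced U.toScheme :=
  isReduced_of_isOpenImmersion hU.isoSpec.hom

theorem isReduced (Ch : ChartOf c ε) : IsReduced C := by
  have hcov : TopologicalSpace.IsOpenCover (fun b => (chartOpens Ch b : C.Opens)) :=
    iSup_chartOpens Ch
  have : ∀ i, IsReduced ((C.openCoverOfIsOpenCover _ hcov).X i) := by
    rintro (_ | _)
    · exact @isReduced_of_isDomain _ _ Ch.isAffine₀ (isDomain_sections₀ Ch)
    · exact @isReduced_of_isDomain _ _ Ch.isAffine₁ (isDomain_sections₁ Ch)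
  exact IsReduced.of_openCover C (C.openCoverOfIsOpenCover _ hcov)

/-- The generic point of an affine open whose ring of functions is a domain. -/
noncomputable def genPt {X : Scheme.{u}} {U : X.Opens} (hU : IsAffineOpen U)
    [IsDomain Γ(X, U)] : X :=
  hU.fromSpec (⟨⊥, Ideal.isPrime_bot⟩ : PrimeSpectrum Γ(X, U))

theorem genPt_specializes {X : Scheme.{u}} {U : X.Opens} (hU : IsAffineOpen U)
    [IsDomain Γ(X, U)] (p : X) (hp : p ∈ U) : genPt hU ⤳ p := by
  have hr : p ∈ Set.range hU.fromSpec := by
    rw [hU.range_fromSpec]; exact hp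
  obtain ⟨q, rfl⟩ := hr
  apply Specializes.map _ hU.fromSpec.continuous
  exact (PrimeSpectrum.le_iff_specializes
    (⟨⊥, Ideal.isPrime_bot⟩ : PrimeSpectrum Γ(X, U)) q).mp bot_le

theorem genPt_mem_basicOpen {X : Scheme.{u}} {U : X.Opens} (hU : IsAffineOpen U)
    [IsDomain Γ(X, U)] (f : Γ(X, U)) (hf : f ≠ 0) : genPt hU ∈ X.basicOpen f := by
  have : (⟨⊥, Ideal.isPrime_bot⟩ : PrimeSpectrum Γ(X, U)) ∈
      hU.fromSpec ⁻¹ᵁ (X.basicOpen f) := by
    rw [hU.fromSpec_preimage_basicOpen]
    exact (PrimeSpectrum.mem_basicOpen _ _).mpr (by simpa using hf)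
  exact this

variable [IsAlgClosed k]

theorem ySec_ne_zero : ySec Ch ≠ 0 := by
  have := Ch.isCurveChart.isDomain₁
  have := Ch.isCurveChart.omega₁
  have h := ne_zero_of_finite_aeval k Ch.B₁ Ch.y Ch.isCurveChart.finite₁
  intro h0
  apply h
  have := congrArg Ch.i₁ h0
  rwa [ySec, RingEquiv.apply_symm_apply, map_zero] at this

theorem irreducibleSpace (Ch : ChartOf c ε) : IrreducibleSpace C := by
  have := isDomain_sections₀ Ch
  have := isDomain_sections₁ Ch
  have key : ∀ p : C, genPt Ch.isAffine₀ ⤳ p := by
    intro p
    rcases mem_U₀_or_mem_U₁ Ch p with hp | hp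
    · exact genPt_specializes Ch.isAffine₀ p hp
    · have h1 := genPt_specializes Ch.isAffine₁ p hp
      have h2 : genPt Ch.isAffine₁ ∈ Ch.U₀ := by
        have := genPt_mem_basicOpen Ch.isAffine₁ (ySec Ch) (ySec_ne_zero Ch)
        rw [← inf_eq_basicOpen_y] at this
        exact this.1
      exact (genPt_specializes Ch.isAffine₀ _ h2).trans h1
  have hcl : closure {genPt Ch.isAffine₀} = (Set.univ : Set C) := by
    rw [Set.eq_univ_iff_forall]
    intro p
    exact specializes_iff_mem_closure.mp (key p)
  have hirr : IsIrreducible (Set.univ : Set C) := by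
    rw [← hcl]
    exact isIrreducible_singleton.closure
  exact irreducibleSpace_def C |>.mpr hirr

/-- **A curve with a two-chart presentation (over an algebraically closed field) is
integral.** -/
theorem isIntegral_of_chartOf (Ch : ChartOf c ε) : IsIntegral C := by
  have := isReduced Ch
  have := irreducibleSpace Ch
  exact isIntegral_of_irreducibleSpace_of_isReduced C

end Integral

end Fermat.Agent.S27.H805
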