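import Fermat.Agent.S27.H363.CurveChartOf
import Fermat.Agent.S27.H805.CurveProps

/-!
# Row S27, leaf CURVE (helper805): `Stmt.CurveScheme`

Assembly of the leaf CURVE (subtask 621):

* GLUE (helper363, `H363.exists_chartOf`): a curve chart is the two-chart presentation of a
  pointed scheme `C = Spec B₀ ∪ Spec B₁` over `k`;
* PROPERTIES (helper805): every scheme with a two-chart presentation is proper
  (`isProper_of_chartOf`), smooth of relative dimension one (`smooth_of_chartOf`) and integral
  (`isIntegral_of_chartOf`).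
-/

set_option autoImplicit false
universe u
open CategoryTheory CategoryTheory.Limits AlgebraicGeometry AlgebraicGeometry.RelPicard
  NeronModelInfra GoodReductionJacobian

namespace Fermat.Agent.S27.H805

open Fermat.Agent.S25

/-- **CURVE-SCHEME**: a curve chart is the two-chart presentation of a smooth proper integral
pointed curve. -/
theorem curveScheme (k : Type u) [Field k] : Stmt.CurveScheme k := by
  intro _ B₀ B₁ B₀₁ _ _ _ _ _ _ _ _ _ _ x y e h
  obtain ⟨C, c, ε, Ch, φ₀, φ₁, φ₀₁, h₀, h₁⟩ := H363.exists_chartOf k B₀ B₁ B₀₁ x y e h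
  exact ⟨C, c, isProper_of_chartOf Ch, smooth_of_chartOf Ch, isIntegral_of_chartOf Ch, ε, Ch,
    φ₀, φ₁, φ₀₁, h₀, h₁⟩

end Fermat.Agent.S27.H805
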